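import Fermat.Agent.Lib.Frob.A2.H471.Frob

/-!
# The leaf of piece A2: `(Φ² - a Φ + ℓ)` sends a generic point to a constant point (helper471)

`genericConst_core`: for `ℓ ≠ 2` prime and `y² = x³ + A x + B` over `𝔽_ℓ` with `Δ ≠ 0` there are
a field `K ⊇ 𝔽_ℓ` and a point `(x, y) ∈ E(K)` with `x` transcendental such that
`(Φ² - a_ℓ Φ + ℓ)(x, y)` is constant.  (Manin's exact-height argument.)
-/

set_option autoImplicit false

open WeierstrassCurve WeierstrassCurve.Affine Polynomial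

namespace Fermat.Agent.Lib.Frob.A2.H471

open Fermat.Agent.S52 Fermat.Agent.Lib.FrobRel

section Abstract

variable {p : ℕ} [Fact p.Prime] {A B : ZMod p}
variable {K : Type*} [Field K] [Algebra (ZMod p) K] [DecidableEq K]
variable {ι : RatFunc (ZMod p) →ₐ[ZMod p] K} {y : K}

/-- Frobenius restricted to the Manin subgroup -/
noncomputable def frobM (hp2 : p ≠ 2) (hy : y ^ 2 = ι (cubR A B)) :
    subM A B ι y hy →+ subM A B ι y hy :=
  AddMonoidHom.codRestrict ((H230.frobPt (sw A B) K).comp (subM A B ι y hy).subtype)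
    (subM A B ι y hy) (fun P => IsM.frob hp2 hy P.2)

lemma coe_frobM (hp2 : p ≠ 2) (hy : y ^ 2 = ι (cubR A B)) (P : subM A B ι y hy) :
    ((frobM hp2 hy P : subM A B ι y hy) : ((sw A B)⁄K).Point)
      = H230.frobPt (sw A B) K (P : ((sw A B)⁄K).Point) := rfl

/-- the height of `(Φ² - a Φ + p) Q` vanishes for `Q ∈ M` -/
theorem hgt_frobPsi (hp2 : p ≠ 2) (hΔ : (sw A B).Δ ≠ 0) (hy : y ^ 2 = ι (cubR A B))
    {P : ((sw A B)⁄K).Point} (hP : IsM A B ι y P) :
    IsM A B ι y (H230.frobPsi (sw A B) K (sw A B).traceOfFrobenius P) ∧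
      H311.hgt (jι ι) (H230.frobPsi (sw A B) K (sw A B).traceOfFrobenius P) = 0 := by
  set M := subM A B ι y hy with hM
  let h : M → ℕ := fun Q => H311.hgt (jι ι) (Q : ((sw A B)⁄K).Point)
  have hpar : H127.IsParNat h := fun Q R => hgt_parallelogram hΔ hy Q.2 R.2
  have hΦ : ∀ Q : M, h (frobM hp2 hy Q) = p * h Q := fun Q => hgt_frob Q.2
  have hΦ1 : ∀ Q : M, h (frobM hp2 hy Q - Q)
      = H621.ratDeg (H621.maninFun p A B) * h Q := fun Q => hgt_frob_sub hp2 hΔ hy Q.2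
  have key := hpar.frobenius_relation (frobM hp2 hy) p (H621.ratDeg (H621.maninFun p A B))
    hΦ hΦ1 ⟨P, hP⟩
  have htr : ((p : ℤ) + 1 - (H621.ratDeg (H621.maninFun p A B) : ℤ))
      = (sw A B).traceOfFrobenius := by
    have := H621.ratDeg_maninFun_eq_trace p hp2 A B hΔ
    have e : (H621.shortW p A B).traceOfFrobenius = (sw A B).traceOfFrobenius := rfl
    rw [e] at this
    rw [this]
    ring
  rw [htr] at key
  have hcoe : (((frobM hp2 hy) ((frobM hp2 hy) ⟨P, hP⟩)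
      - (sw A B).traceOfFrobenius • (frobM hp2 hy) ⟨P, hP⟩ + p • (⟨P, hP⟩ : M) : M) :
        ((sw A B)⁄K).Point)
      = H230.frobPsi (sw A B) K (sw A B).traceOfFrobenius P := by
    rw [H230.frobPsi_apply, ZMod.card, natCast_zsmul]
    rfl
  rw [← hcoe]
  exact ⟨Subtype.property _, key⟩

end Abstract

/-- **The leaf of piece A2**, literal short Weierstrass form. -/
theorem genericConst_core (ℓ : ℕ) [Fact ℓ.Prime] (hℓ : ℓ ≠ 2) (A B : ZMod ℓ)
    (hΔ : (sw A B).Δ ≠ 0) :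
    ∃ (K : Type) (_ : Field K) (_ : Algebra (ZMod ℓ) K) (_ : DecidableEq K)
      (x y : K) (h : ((sw A B)⁄K).Nonsingular x y), Transcendental (ZMod ℓ) x ∧
        H230.IsConstPt (sw A B)
          (H230.frobPsi (sw A B) K (sw A B).traceOfFrobenius (Point.some x y h)) := by
  classical
  let K : Type := AlgebraicClosure (RatFunc (ZMod ℓ))
  let ι : RatFunc (ZMod ℓ) →ₐ[ZMod ℓ] K := IsScalarTower.toAlgHom (ZMod ℓ) (RatFunc (ZMod ℓ)) K
  obtain ⟨y, hy⟩ : ∃ y : K, y ^ 2 = ι (cubR A B) :=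
    IsAlgClosed.exists_pow_nat_eq (ι (cubR A B)) (by norm_num)
  have heq : y ^ 2 = (ι RatFunc.X) ^ 3 + algebraMap (ZMod ℓ) K A * ι RatFunc.X
      + algebraMap (ZMod ℓ) K B := by
    rw [hy, cubR_eq, map_add, map_add, map_mul, map_pow, ι_C, ι_C]
  have h0 : ((sw A B)⁄K).Nonsingular (ι RatFunc.X) y := swK_nonsingular A B hΔ heq
  have hP0 : IsM A B ι y (Point.some (ι RatFunc.X) y h0) :=
    isM_some h0 RatFunc.X 1 rfl (by rw [map_one, mul_one])
  refine ⟨K, inferInstance, inferInstance, inferInstance, ι RatFunc.X, y, h0, ?_, ?_⟩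
  · intro halg
    exact RatFunc.transcendental_X ((isAlgebraic_algHom_iff ι (ι_injective ι)).mp halg)
  · obtain ⟨hM, h0'⟩ := hgt_frobPsi hℓ hΔ hy hP0
    rcases hM.eq_zero_or_const h0' with h | ⟨c, y', hns, h⟩
    · exact Or.inl h
    · exact Or.inr ⟨_, _, hns, h, isAlgebraic_algebraMap c⟩

/-- **The leaf of piece A2** for curves with `a₁ = a₂ = a₃ = 0`
(this is `Lib.Frob.A2.GenericConst` of the squad skeleton, unfolded). -/
theorem genericConst_unfolded :
    ∀ (ℓ : ℕ) [Fact ℓ.Prime], 5 ≤ ℓ → ∀ (E : WeierstrassCurve (ZMod ℓ)),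
      E.a₁ = 0 → E.a₂ = 0 → E.a₃ = 0 → E.Δ ≠ 0 →
      ∃ (K : Type) (_ : Field K) (_ : Algebra (ZMod ℓ) K) (_ : DecidableEq K)
        (x y : K) (h : (E⁄K).Nonsingular x y), Transcendental (ZMod ℓ) x ∧
          H230.IsConstPt E (H230.frobPsi E K E.traceOfFrobenius (Point.some x y h)) := by
  intro ℓ _ hℓ E h₁ h₂ h₃ hΔ
  obtain ⟨a₁, a₂, a₃, a₄, a₆⟩ := E
  simp only at h₁ h₂ h₃
  subst h₁ h₂ h₃
  exact genericConst_core ℓ (by omega) a₄ a₆ hΔ

end Fermat.Agent.Lib.Frob.A2.H471
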