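import Fermat.Agent.Lib.Frob.A2.H240.ShortNF
import Fermat.Agent.Lib.Frob.A2.H471.Main

/-!
# Piece A2 of row S52: `FrobRelationFin`, independent second proof (helper471)

`frobRelationFin_h471 : FrobRelationFin` (the frozen interface of `Lib/Frob/Interfaces.lean`), from
* `genericConst_unfolded` (Manin's exact-height argument on `M = {O} ∪ {(X, y·Y)}`, this directory),
* helper230's translation trick `H230.frobPsi_eq_zero` and helper240's `frobRelationFin_of_short`.
-/

set_option autoImplicit false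

open WeierstrassCurve WeierstrassCurve.Affine WeierstrassCurve.Affine.Point

namespace Fermat.Agent.Lib.Frob.A2.H471

open Fermat.Agent.Lib.Frob Fermat.Agent.Lib.FrobRel

/-- **Piece A2**: the Hasse–Weil Frobenius relation `Φ² - a_ℓ Φ + ℓ = 0` on `E(k)` for every
Weierstrass curve `E` over `𝔽_ℓ` with `Δ ≠ 0`, `ℓ ≥ 5`, and every field `k ⊇ 𝔽_ℓ`. -/
theorem frobRelationFin_h471 : Fermat.Agent.Lib.Frob.FrobRelationFin := by
  apply Fermat.Agent.Lib.Frob.A2.H240.frobRelationFin_of_short
  intro ℓ _ hℓ E h₁ h₂ h₃ hΔ k _ _ _ P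
  obtain ⟨K, _, _, _, x, y, hns, hx, hC⟩ := genericConst_unfolded ℓ hℓ E h₁ h₂ h₃ hΔ
  have key := H230.frobPsi_eq_zero E hΔ hns hx E.traceOfFrobenius hC (L := k) P
  rw [H230.frobPsi_apply, ZMod.card] at key
  exact key

end Fermat.Agent.Lib.Frob.A2.H471
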