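import Fermat.Agent.Lib.Frob.A2.H471.Sub
import Fermat.Agent.S52.H621.ManinCard
import Fermat.Agent.S52.H127.QuadForm
import Fermat.Agent.Lib.FrobRel.H230Frob

/-!
# Frobenius on the Manin subgroup (helper471)

`F = ZMod p`, `p ≠ 2`.  On `M = {O} ∪ {(ι u, y · ι v)}`:
* `Φ M ⊆ M`, `h (Φ Q) = p · h Q`;
* `h (Φ Q - Q) = N · h Q`, `N = ratDeg maninFun = #E(F_p)`;
* hence `h ((Φ² - a Φ + p) Q) = 0` for `a = p + 1 - N`, and `(Φ² - a Φ + p) Q` is constant.
-/

set_option autoImplicit false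

open WeierstrassCurve WeierstrassCurve.Affine Polynomial

namespace Fermat.Agent.Lib.Frob.A2.H471

open Fermat.Agent.S52 Fermat.Agent.Lib.FrobRel

variable (p : ℕ) [Fact p.Prime] (A B : ZMod p)
variable {K : Type*} [Field K] [Algebra (ZMod p) K] [DecidableEq K]
variable (ι : RatFunc (ZMod p) →ₐ[ZMod p] K) (y : K)

lemma cubP_eq_cubic : cubP A B = H621.cubic p A B := rfl

variable {p A B ι y}

lemma odd_split (hp2 : p ≠ 2) : 2 * ((p - 1) / 2) + 1 = p := (H621.half_spec hp2).1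

omit [DecidableEq K] in
lemma pow_odd' (z : K) (n k : ℕ) (h : 2 * k + 1 = n) : z ^ n = z * (z ^ 2) ^ k := by
  subst h
  ring

omit [DecidableEq K] in
lemma some_congr' {W : Affine K} {x₁ x₂ y₁ y₂ : K} (h₁ : W.Nonsingular x₁ y₁) (hx : x₁ = x₂)
    (hy : y₁ = y₂) :
    ∃ h₂ : W.Nonsingular x₂ y₂, Point.some x₁ y₁ h₁ = Point.some x₂ y₂ h₂ := by
  subst hx hy
  exact ⟨h₁, rfl⟩

omit [DecidableEq K] in
/-- the `p`-th power of `y · ι v` for a point `(ι u, y · ι v)` -/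
lemma y_pow_p (hp2 : p ≠ 2) (hy : y ^ 2 = ι (cubR A B)) (v : RatFunc (ZMod p)) :
    (y * ι v) ^ p = y * ι (cubR A B ^ ((p - 1) / 2) * v ^ p) := by
  rw [map_mul, map_pow, map_pow, ← hy, mul_pow, pow_odd' y p ((p - 1) / 2) (odd_split hp2)]
  ring

lemma frobPt_some_eq {x' y' : K} (h : ((sw A B)⁄K).Nonsingular x' y') :
    ∃ h' : ((sw A B)⁄K).Nonsingular (x' ^ p) (y' ^ p),
      H230.frobPt (sw A B) K (Point.some x' y' h) = Point.some (x' ^ p) (y' ^ p) h' := by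
  have hc : Fintype.card (ZMod p) = p := ZMod.card p
  obtain ⟨h₂, e⟩ := some_congr'
    ((Affine.baseChange_nonsingular (W := sw A B) (f := FiniteField.frobeniusAlgHom (ZMod p) K)
      (FiniteField.frobeniusAlgHom (ZMod p) K).injective x' y').mpr h)
    (show (FiniteField.frobeniusAlgHom (ZMod p) K) x' = x' ^ p by
      rw [FiniteField.coe_frobeniusAlgHom, hc])
    (show (FiniteField.frobeniusAlgHom (ZMod p) K) y' = y' ^ p by
      rw [FiniteField.coe_frobeniusAlgHom, hc])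
  exact ⟨h₂, e⟩

/-- `Φ M ⊆ M` -/
lemma IsM.frob (hp2 : p ≠ 2) (hy : y ^ 2 = ι (cubR A B)) {P : ((sw A B)⁄K).Point}
    (hP : IsM A B ι y P) : IsM A B ι y (H230.frobPt (sw A B) K P) := by
  rcases hP with rfl | ⟨u, v, h, rfl⟩
  · rw [map_zero]; exact isM_zero
  · obtain ⟨h', e⟩ := frobPt_some_eq h
    rw [e]
    exact isM_some h' (u ^ p) (cubR A B ^ ((p - 1) / 2) * v ^ p) (by rw [map_pow])
      (y_pow_p hp2 hy v)

/-- `h (Φ Q) = p · h Q` on `M` -/
lemma hgt_frob {P : ((sw A B)⁄K).Point} (hP : IsM A B ι y P) :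
    H311.hgt (jι ι) (H230.frobPt (sw A B) K P) = p * H311.hgt (jι ι) P := by
  rcases hP with rfl | ⟨u, v, h, rfl⟩
  · rw [map_zero, hgt_zero', mul_zero]
  · obtain ⟨h', e⟩ := frobPt_some_eq h
    rw [e, hgt_of_x h' (u ^ p) (by rw [map_pow]), hgt_of_x h u rfl, H621.ratDeg_pow]

lemma maninDen_ne_zero : H621.maninDen p ≠ 0 :=
  pow_ne_zero 2 (FiniteField.X_pow_card_sub_X_ne_zero _ (Fact.out : p.Prime).one_lt)

lemma aeval_maninNum (u : RatFunc (ZMod p)) :
    aeval u (H621.maninNum p A B)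
      = aeval u (cubP A B) * (aeval u (cubP A B) ^ ((p - 1) / 2) + 1) ^ 2
        - (u ^ p + u) * (u ^ p - u) ^ 2 := by
  simp [H621.maninNum, cubP_eq_cubic]

lemma aeval_maninDen (u : RatFunc (ZMod p)) :
    aeval u (H621.maninDen p) = (u ^ p - u) ^ 2 := by
  simp [H621.maninDen]

lemma pow_p_ne_self {u : RatFunc (ZMod p)} (hu : H621.ratDeg u ≠ 0) : u ^ p ≠ u := by
  intro h
  have htr : Transcendental (ZMod p) u := by
    apply RatFunc.transcendental_of_ne_C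
    rintro ⟨c, hc⟩
    exact hu ((H621.ratDeg_eq_zero_iff u).mpr ⟨c, hc⟩)
  have h0 : aeval u (X ^ p - X : (ZMod p)[X]) = 0 := by
    simp [h]
  exact FiniteField.X_pow_card_sub_X_ne_zero _ (Fact.out : p.Prime).one_lt
    ((transcendental_iff.mp htr) _ h0)

/-- the `x`-coordinate of `Φ Q - Q` is Manin's function of the `x`-coordinate of `Q` -/
lemma hgt_frob_sub_of_ne (hp2 : p ≠ 2) (hy : y ^ 2 = ι (cubR A B))
    {u v : RatFunc (ZMod p)} (h : ((sw A B)⁄K).Nonsingular (ι u) (y * ι v))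
    (hu : H621.ratDeg u ≠ 0) :
    H311.hgt (jι ι) (H230.frobPt (sw A B) K (Point.some _ _ h) - Point.some _ _ h)
      = H621.ratDeg (H621.maninFun p A B) * H621.ratDeg u := by
  obtain ⟨h', e⟩ := frobPt_some_eq h
  have hne : u ^ p ≠ u := pow_p_ne_self hu
  have hx : (ι u) ^ p ≠ ι u := by
    rw [← map_pow]
    exact fun h => hne (ι_injective ι h)
  have hsub : (ι u) ^ p - ι u ≠ 0 := sub_ne_zero.mpr hx
  rw [e, sub_eq_add_neg, Point.neg_some, Point.add_of_X_ne hx]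
  have hc : (y * ι v) ^ 2 = ι (aeval u (cubP A B)) := by
    rw [(swK_equation A B _ _).mp h.1, aeval_cubP, map_add, map_add, map_mul, map_pow, ι_C, ι_C]
  have hyp : (y * ι v) ^ p = (y * ι v) * ι (aeval u (cubP A B)) ^ ((p - 1) / 2) := by
    rw [pow_odd' (y * ι v) p ((p - 1) / 2) (odd_split hp2), hc]
  rw [hgt_of_x _ (aeval u (H621.maninNum p A B) / aeval u (H621.maninDen p)) ?_,
    H621.ratDeg_comp _ _ maninDen_ne_zero]
  · rfl
  · rw [swK_addX, swK_negY, swK_slope_of_X_ne A B _ _ hx, map_div₀, aeval_maninNum,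
      aeval_maninDen, map_sub, map_mul, map_pow, map_add, map_pow, map_one, map_mul, map_pow,
      map_sub, map_pow, map_add, map_pow, hyp]
    generalize ι (aeval u (cubP A B)) = c at hc ⊢
    generalize y * ι v = Y at hc ⊢
    generalize (ι u) ^ p = Up at hsub ⊢
    generalize ι u = U at hsub ⊢
    generalize c ^ ((p - 1) / 2) = ck
    field_simp
    linear_combination (ck + 1) ^ 2 * hc

/-- `h (Φ Q - Q) = N · h Q` on `M` -/
lemma hgt_frob_sub (hp2 : p ≠ 2) (hΔ : (sw A B).Δ ≠ 0) (hy : y ^ 2 = ι (cubR A B))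
    {P : ((sw A B)⁄K).Point} (hP : IsM A B ι y P) :
    H311.hgt (jι ι) (H230.frobPt (sw A B) K P - P)
      = H621.ratDeg (H621.maninFun p A B) * H311.hgt (jι ι) P := by
  by_cases h0 : H311.hgt (jι ι) P = 0
  · have hpar := hgt_parallelogram hΔ hy (IsM.frob hp2 hy hP) hP
    rw [hgt_frob hP, h0] at hpar
    rw [h0, mul_zero]
    omega
  · rcases hP with rfl | ⟨u, v, h, rfl⟩
    · exact absurd hgt_zero' h0
    · have hu : H621.ratDeg u ≠ 0 := by
        rwa [hgt_of_x h u rfl] at h0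
      rw [hgt_frob_sub_of_ne hp2 hy h hu, hgt_of_x h u rfl]

end Fermat.Agent.Lib.Frob.A2.H471
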