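import Mathlib

/-!
# Short Weierstrass curves over an extension field: explicit group law (helper471)

`F` a field, `A B : F`, `W = ⟨0, 0, 0, A, B⟩`, `K` a field over `F`.  Explicit formulas for the
equation, negation, and addition on `(W⁄K).Point`.
-/

set_option autoImplicit false

open WeierstrassCurve WeierstrassCurve.Affine

namespace Fermat.Agent.Lib.Frob.A2.H471

variable {F : Type*} [Field F] (A B : F) (K : Type*) [Field K] [Algebra F K]

/-- The short Weierstrass curve `y² = x³ + A x + B`. -/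
def sw : WeierstrassCurve F := ⟨0, 0, 0, A, B⟩

@[simp] lemma sw_a₁ : (sw A B).a₁ = 0 := rfl
@[simp] lemma sw_a₂ : (sw A B).a₂ = 0 := rfl
@[simp] lemma sw_a₃ : (sw A B).a₃ = 0 := rfl
@[simp] lemma sw_a₄ : (sw A B).a₄ = A := rfl
@[simp] lemma sw_a₆ : (sw A B).a₆ = B := rfl

@[simp] lemma swK_a₁ : ((sw A B)⁄K).a₁ = 0 := by
  simp [WeierstrassCurve.baseChange]
@[simp] lemma swK_a₂ : ((sw A B)⁄K).a₂ = 0 := by
  simp [WeierstrassCurve.baseChange]
@[simp] lemma swK_a₃ : ((sw A B)⁄K).a₃ = 0 := by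
  simp [WeierstrassCurve.baseChange]
@[simp] lemma swK_a₄ : ((sw A B)⁄K).a₄ = algebraMap F K A := by
  simp [WeierstrassCurve.baseChange]
@[simp] lemma swK_a₆ : ((sw A B)⁄K).a₆ = algebraMap F K B := by
  simp [WeierstrassCurve.baseChange]

variable {K}

lemma swK_equation (x y : K) :
    ((sw A B)⁄K).Equation x y ↔ y ^ 2 = x ^ 3 + algebraMap F K A * x + algebraMap F K B := by
  rw [WeierstrassCurve.Affine.equation_iff]
  simp

@[simp] lemma swK_negY (x y : K) : ((sw A B)⁄K).negY x y = -y := by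
  simp [WeierstrassCurve.Affine.negY]

lemma swK_addX (x₁ x₂ L : K) : ((sw A B)⁄K).addX x₁ x₂ L = L ^ 2 - x₁ - x₂ := by
  simp [WeierstrassCurve.Affine.addX]

lemma swK_addY (x₁ x₂ y₁ L : K) :
    ((sw A B)⁄K).addY x₁ x₂ y₁ L = -(L * (L ^ 2 - x₁ - x₂ - x₁) + y₁) := by
  simp [WeierstrassCurve.Affine.addY, WeierstrassCurve.Affine.negAddY,
    WeierstrassCurve.Affine.addX, WeierstrassCurve.Affine.negY]

lemma swK_Δ_ne_zero (hΔ : (sw A B).Δ ≠ 0) : ((sw A B)⁄K).Δ ≠ 0 := by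
  show (WeierstrassCurve.map (sw A B) (algebraMap F K)).Δ ≠ 0
  rw [WeierstrassCurve.map_Δ]
  exact (map_ne_zero_iff _ (algebraMap F K).injective).mpr hΔ

lemma swK_nonsingular (hΔ : (sw A B).Δ ≠ 0) {x y : K}
    (h : y ^ 2 = x ^ 3 + algebraMap F K A * x + algebraMap F K B) :
    ((sw A B)⁄K).Nonsingular x y :=
  (((sw A B)⁄K).equation_iff_nonsingular_of_Δ_ne_zero (swK_Δ_ne_zero A B hΔ)).mp
    ((swK_equation A B x y).mpr h)

lemma swK_slope_of_X_ne [DecidableEq K] {x₁ x₂ : K} (y₁ y₂ : K) (hx : x₁ ≠ x₂) :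
    ((sw A B)⁄K).slope x₁ x₂ y₁ y₂ = (y₁ - y₂) / (x₁ - x₂) :=
  WeierstrassCurve.Affine.slope_of_X_ne hx

lemma swK_slope_of_Y_ne [DecidableEq K] {x₁ x₂ y₁ y₂ : K} (hx : x₁ = x₂) (hy : y₁ ≠ -y₂) :
    ((sw A B)⁄K).slope x₁ x₂ y₁ y₂ = (3 * x₁ ^ 2 + algebraMap F K A) / (y₁ + y₁) := by
  rw [WeierstrassCurve.Affine.slope_of_Y_ne hx (by simpa using hy)]
  simp [sub_neg_eq_add]

end Fermat.Agent.Lib.Frob.A2.H471
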