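import Fermat.Agent.Lib.Frob.A2.H471.Short
import Fermat.Agent.S52.H311.Height
import Fermat.Agent.S52.H621.RatDegComp

/-!
# The Manin subgroup `M = {O} ∪ {(X, y·Y)}` and its degree height (helper471)

`F` a field, `W : y² = x³ + A x + B` with `Δ ≠ 0`, `K` a field over `F`,
`ι : RatFunc F →ₐ[F] K`, `y : K` with `y² = ι (X³ + A X + B)`.  The set
`M = {O} ∪ {(ι u, y · ι v) : u, v ∈ F(X)}` is a subgroup of `W(K)`, and the degree height
(`H311.hgt`) is `ratDeg u` on `M` and satisfies the exact parallelogram law there.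
-/

set_option autoImplicit false

open WeierstrassCurve WeierstrassCurve.Affine Polynomial

namespace Fermat.Agent.Lib.Frob.A2.H471

open Fermat.Agent.S52

variable {F : Type*} [Field F] (A B : F) {K : Type*} [Field K] [Algebra F K] [DecidableEq K]

/-- the cubic `X³ + A X + B` as a polynomial -/
noncomputable def cubP : F[X] := X ^ 3 + C A * X + C B

/-- the cubic `X³ + A X + B` as a rational function -/
noncomputable def cubR : RatFunc F := algebraMap F[X] (RatFunc F) (cubP A B)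

lemma cubR_eq : cubR A B = RatFunc.X ^ 3 + RatFunc.C A * RatFunc.X + RatFunc.C B := by
  simp [cubR, cubP, RatFunc.algebraMap_X, RatFunc.algebraMap_C]

lemma aeval_cubP (u : RatFunc F) :
    aeval u (cubP A B) = u ^ 3 + RatFunc.C A * u + RatFunc.C B := by
  simp [cubP, RatFunc.algebraMap_eq_C]

variable (ι : RatFunc F →ₐ[F] K) (y : K)

lemma ι_C (c : F) : ι (RatFunc.C c) = algebraMap F K c := by
  rw [← RatFunc.algebraMap_eq_C, ι.commutes]

lemma ι_injective : Function.Injective ι := ι.toRingHom.injective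

/-- the polynomial embedding `F[X] → K` -/
noncomputable def jι : F[X] →ₐ[F] K := ι.comp (H621.toRatFuncAlgHom F)

lemma jι_apply (a : F[X]) : jι ι a = ι (algebraMap F[X] (RatFunc F) a) := rfl

lemma jι_injective : Function.Injective (jι ι) := by
  intro a b h
  rw [jι_apply, jι_apply] at h
  exact IsFractionRing.injective F[X] (RatFunc F) (ι_injective ι h)

/-- the points of `M` -/
def IsM (P : ((sw A B)⁄K).Point) : Prop :=
  P = 0 ∨ ∃ (u v : RatFunc F) (h : ((sw A B)⁄K).Nonsingular (ι u) (y * ι v)),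
    P = Point.some (ι u) (y * ι v) h

variable {A B ι y}

lemma isM_zero : IsM A B ι y 0 := Or.inl rfl

lemma isM_some {x' y' : K} (h : ((sw A B)⁄K).Nonsingular x' y') (u v : RatFunc F)
    (hx : x' = ι u) (hy' : y' = y * ι v) : IsM A B ι y (Point.some x' y' h) := by
  subst hx hy'
  exact Or.inr ⟨u, v, h, rfl⟩

lemma IsM.neg {P : ((sw A B)⁄K).Point} (hP : IsM A B ι y P) : IsM A B ι y (-P) := by
  rcases hP with rfl | ⟨u, v, h, rfl⟩
  · exact isM_zero
  · rw [Point.neg_some]
    exact isM_some _ u (-v) rfl (by rw [swK_negY, map_neg, mul_neg])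

lemma IsM.add (hy : y ^ 2 = ι (cubR A B)) {P Q : ((sw A B)⁄K).Point}
    (hP : IsM A B ι y P) (hQ : IsM A B ι y Q) : IsM A B ι y (P + Q) := by
  rcases hP with rfl | ⟨u₁, v₁, h₁, rfl⟩
  · rw [zero_add]; exact hQ
  rcases hQ with rfl | ⟨u₂, v₂, h₂, rfl⟩
  · rw [add_zero]; exact Or.inr ⟨u₁, v₁, h₁, rfl⟩
  by_cases hxy : ι u₁ = ι u₂ ∧ y * ι v₁ = ((sw A B)⁄K).negY (ι u₂) (y * ι v₂)
  · rw [Point.add_of_Y_eq hxy.1 hxy.2]; exact isM_zero
  rw [Point.add_some hxy]
  -- the slope is `y * ι μ`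
  obtain ⟨μ, hμ⟩ : ∃ μ : RatFunc F,
      ((sw A B)⁄K).slope (ι u₁) (ι u₂) (y * ι v₁) (y * ι v₂) = y * ι μ := by
    by_cases hx : ι u₁ = ι u₂
    · have hyne : y * ι v₁ ≠ -(y * ι v₂) := by
        intro h
        exact hxy ⟨hx, by rw [swK_negY]; exact h⟩
      rw [swK_slope_of_Y_ne A B hx hyne]
      have hu : u₁ = u₂ := ι_injective ι hx
      subst hu
      have hv : y * ι v₁ = y * ι v₂ := by
        have e₁ := (swK_equation A B _ _).mp h₁.1
        have e₂ := (swK_equation A B _ _).mp h₂.1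
        have : (y * ι v₁ - y * ι v₂) * (y * ι v₁ + y * ι v₂) = 0 := by
          linear_combination e₁ - e₂
        rcases mul_eq_zero.mp this with h | h
        · exact sub_eq_zero.mp h
        · exact absurd (eq_neg_of_add_eq_zero_left h) hyne
      have h2 : y * ι v₁ + y * ι v₁ ≠ 0 := by
        intro h
        apply hyne
        rw [← hv]
        exact eq_neg_of_add_eq_zero_left h
      have hy0 : y ≠ 0 := by
        rintro rfl
        simp at h2
      have hv0 : ι v₁ ≠ 0 := by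
        intro h
        rw [h] at h2
        simp at h2
      have h22 : (2 : K) ≠ 0 := by
        intro h
        apply h2
        linear_combination (y * ι v₁) * h
      refine ⟨(3 * u₁ ^ 2 + RatFunc.C A) / (2 * cubR A B * v₁), ?_⟩
      rw [map_div₀, map_add, map_mul, map_mul, map_mul, map_pow, ι_C, ← hy, map_ofNat,
        map_ofNat, ← mul_div_assoc,
        div_eq_div_iff h2 (mul_ne_zero (mul_ne_zero h22 (pow_ne_zero 2 hy0)) hv0)]
      ring
    · rw [swK_slope_of_X_ne A B _ _ hx]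
      refine ⟨(v₁ - v₂) / (u₁ - u₂), ?_⟩
      rw [map_div₀, map_sub, map_sub]
      ring
  refine isM_some _ (cubR A B * μ ^ 2 - u₁ - u₂)
    (-(μ * (cubR A B * μ ^ 2 - u₁ - u₂ - u₁) + v₁)) ?_ ?_
  · rw [swK_addX, hμ, map_sub, map_sub, map_mul, map_pow, ← hy]
    ring
  · rw [swK_addY, hμ, map_neg, map_add, map_mul, map_sub, map_sub, map_sub, map_mul, map_pow,
      ← hy]
    ring

variable (A B ι y)

/-- **The Manin subgroup** `M = {O} ∪ {(ι u, y · ι v)}` of `W(K)`. -/
def subM (hy : y ^ 2 = ι (cubR A B)) : AddSubgroup ((sw A B)⁄K).Point where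
  carrier := {P | IsM A B ι y P}
  zero_mem' := isM_zero
  add_mem' := fun hP hQ => IsM.add hy hP hQ
  neg_mem' := fun hP => IsM.neg hP

variable {A B ι y}

lemma mem_subM {hy : y ^ 2 = ι (cubR A B)} {P : ((sw A B)⁄K).Point} :
    P ∈ subM A B ι y hy ↔ IsM A B ι y P := Iff.rfl

/-! ### The height on `M` -/

lemma isXRep_of_x {x' y' : K} (h : ((sw A B)⁄K).Nonsingular x' y') (u : RatFunc F)
    (hx : x' = ι u) :
    H311.IsXRep (jι ι) (Point.some x' y' h) u.num u.denom := by
  refine H311.isXRep_some h u.isCoprime_num_denom ?_ ?_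
  · rw [jι_apply]
    exact (map_ne_zero_iff _ (ι_injective ι)).mpr (RatFunc.algebraMap_ne_zero u.denom_ne_zero)
  · rw [jι_apply, jι_apply, hx, ← map_mul]
    congr 1
    have hd : algebraMap F[X] (RatFunc F) u.denom ≠ 0 :=
      RatFunc.algebraMap_ne_zero u.denom_ne_zero
    have := RatFunc.num_div_denom u
    rw [div_eq_iff hd] at this
    exact this.symm

lemma hgt_of_x {x' y' : K} (h : ((sw A B)⁄K).Nonsingular x' y') (u : RatFunc F)
    (hx : x' = ι u) :
    H311.hgt (jι ι) (Point.some x' y' h) = H621.ratDeg u := by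
  rw [H311.hgt_eq (jι_injective ι) (isXRep_of_x h u hx)]
  rfl

lemma hgt_zero' : H311.hgt (jι ι) (0 : ((sw A B)⁄K).Point) = 0 :=
  H311.hgt_zero (jι_injective ι)

lemma IsM.exists_isXRep {P : ((sw A B)⁄K).Point} (hP : IsM A B ι y P) :
    ∃ a b, H311.IsXRep (jι ι) P a b := by
  rcases hP with rfl | ⟨u, v, h, rfl⟩
  · exact ⟨1, 0, H311.isXRep_zero⟩
  · exact ⟨_, _, isXRep_of_x h u rfl⟩

/-- **Exact parallelogram law on `M`.** -/
theorem hgt_parallelogram (hΔ : (sw A B).Δ ≠ 0) (hy : y ^ 2 = ι (cubR A B))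
    {P Q : ((sw A B)⁄K).Point} (hP : IsM A B ι y P) (hQ : IsM A B ι y Q) :
    H311.hgt (jι ι) (P + Q) + H311.hgt (jι ι) (P - Q)
      = 2 * H311.hgt (jι ι) P + 2 * H311.hgt (jι ι) Q := by
  have : (sw A B).IsElliptic := ⟨isUnit_iff_ne_zero.mpr hΔ⟩
  have hS := (IsM.add hy hP hQ).exists_isXRep
  have hD : ∃ a b, H311.IsXRep (jι ι) (P - Q) a b := by
    rw [sub_eq_add_neg]
    exact (IsM.add hy hP hQ.neg).exists_isXRep
  exact H311.hgt_add_sub (W := sw A B) (jι_injective ι) hP.exists_isXRep hQ.exists_isXRep hS hD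

/-- height zero on `M` means constant -/
lemma IsM.eq_zero_or_const {P : ((sw A B)⁄K).Point} (hP : IsM A B ι y P)
    (h0 : H311.hgt (jι ι) P = 0) :
    P = 0 ∨ ∃ (c : F) (y' : K) (h : ((sw A B)⁄K).Nonsingular (algebraMap F K c) y'),
      P = Point.some (algebraMap F K c) y' h := by
  rcases hP with rfl | ⟨u, v, h, rfl⟩
  · exact Or.inl rfl
  · right
    rw [hgt_of_x h u rfl] at h0
    obtain ⟨c, rfl⟩ := (H621.ratDeg_eq_zero_iff u).mp h0
    have hc : ι (RatFunc.C c) = algebraMap F K c := ι_C ι c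
    refine ⟨c, y * ι v, hc ▸ h, ?_⟩
    congr 1

end Fermat.Agent.Lib.Frob.A2.H471
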